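import Mathlib
import Fermat.Prelude.Def_ModularCurve_CanonicalDivisor

set_option autoImplicit false

/-!
# Basic facts on `Place.ord` (helper38, T24 / M4e)
Membership in the valuation ring in terms of `ord`, ultrametric inequality.
-/

open AlgebraicCurve

namespace Fermat.Agent.S24_helper38

variable {K F : Type*} [Field K] [Field F] [Algebra K F] (v : Place K F)

theorem exists_irreducible_place :
    ∃ π : v.toValuationSubring, Irreducible π :=
  IsDiscreteValuationRing.exists_irreducible v.toValuationSubring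

theorem ord_nonneg_of_mem {f : F} (hf : f ∈ v.toValuationSubring) : 0 ≤ v.ord f := by
  rcases eq_or_ne f 0 with rfl | hf0
  · simp
  obtain ⟨π, hπ⟩ := exists_irreducible_place v
  obtain ⟨u, hu⟩ := v.exists_unit_mul_zpow hf0 hπ
  by_contra hneg
  rw [not_le] at hneg
  obtain ⟨k, hk⟩ : ∃ k : ℕ, v.ord f = -((k : ℤ) + 1) :=
    ⟨(-(v.ord f) - 1).toNat, by omega⟩
  have hπF : (π : F) ≠ 0 := by
    simpa [ne_eq, ZeroMemClass.coe_eq_zero] using hπ.ne_zero
  -- `f * π^(k+1) = u`
  have h1 : f * (π : F) ^ (k + 1) = ((u : v.toValuationSubring) : F) := by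
    rw [hu, hk, zpow_neg, mul_assoc]
    rw [show ((k : ℤ) + 1) = ((k + 1 : ℕ) : ℤ) by push_cast; ring, zpow_natCast,
      inv_mul_cancel₀ (pow_ne_zero _ hπF), mul_one]
  have h2 : (⟨f, hf⟩ : v.toValuationSubring) * π ^ (k + 1) = (u : v.toValuationSubring) := by
    apply Subtype.ext
    simpa using h1
  have h3 : π ∣ (u : v.toValuationSubring) := ⟨⟨f, hf⟩ * π ^ k, by rw [← h2]; ring⟩
  exact hπ.not_isUnit (isUnit_of_dvd_unit h3 u.isUnit)

theorem mem_of_ord_nonneg {f : F} (hf : 0 ≤ v.ord f) : f ∈ v.toValuationSubring := by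
  rcases eq_or_ne f 0 with rfl | hf0
  · exact zero_mem _
  obtain ⟨π, hπ⟩ := exists_irreducible_place v
  obtain ⟨u, hu⟩ := v.exists_unit_mul_zpow hf0 hπ
  rw [hu]
  refine mul_mem (u : v.toValuationSubring).2 ?_
  obtain ⟨n, hn⟩ := Int.eq_ofNat_of_zero_le hf
  rw [hn, zpow_natCast]
  exact pow_mem π.2 n

theorem mem_iff_ord_nonneg {f : F} : f ∈ v.toValuationSubring ↔ 0 ≤ v.ord f :=
  ⟨ord_nonneg_of_mem v, mem_of_ord_nonneg v⟩

theorem ord_neg (f : F) : v.ord (-f) = v.ord f := by
  simp only [Place.ord, Valuation.map_neg]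

theorem ord_lt_iff_adicValuation_lt {f g : F} (hf : f ≠ 0) (hg : g ≠ 0) :
    v.ord f < v.ord g ↔ v.adicValuation g < v.adicValuation f := by
  simp only [Place.ord, neg_lt_neg_iff]
  exact WithZero.log_lt_log (v.adicValuation_ne_zero hg) (v.adicValuation_ne_zero hf)

theorem ord_le_iff_adicValuation_le {f g : F} (hf : f ≠ 0) (hg : g ≠ 0) :
    v.ord f ≤ v.ord g ↔ v.adicValuation g ≤ v.adicValuation f := by
  simp only [Place.ord, neg_le_neg_iff]
  exact WithZero.log_le_log (v.adicValuation_ne_zero hg) (v.adicValuation_ne_zero hf)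

/-- Ultrametric inequality. -/
theorem min_ord_le_ord_add {f g : F} (hf : f ≠ 0) (hg : g ≠ 0) (hfg : f + g ≠ 0) :
    min (v.ord f) (v.ord g) ≤ v.ord (f + g) := by
  have h := v.adicValuation.map_add f g
  rcases le_max_iff.mp h with h | h
  · exact (min_le_left _ _).trans ((ord_le_iff_adicValuation_le v hf hfg).mpr h)
  · exact (min_le_right _ _).trans ((ord_le_iff_adicValuation_le v hg hfg).mpr h)

/-- Strict case of the ultrametric inequality. -/
theorem ord_add_eq_of_lt {f g : F} (hf : f ≠ 0) (hg : g ≠ 0) (h : v.ord f < v.ord g) :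
    f + g ≠ 0 ∧ v.ord (f + g) = v.ord f := by
  have hlt := (ord_lt_iff_adicValuation_lt v hf hg).mp h
  have heq := v.adicValuation.map_add_eq_of_lt_left hlt
  have hne : f + g ≠ 0 := by
    intro h0
    rw [h0, map_zero] at heq
    exact v.adicValuation_ne_zero hf heq.symm
  exact ⟨hne, by simp only [Place.ord, heq]⟩

/-- A unit plus something of positive order (or zero) is a unit. -/
theorem ord_add_eq_zero {a b : F} (ha : a = 0 ∨ 0 < v.ord a) (hb : b ≠ 0) (hb0 : v.ord b = 0) :
    a + b ≠ 0 ∧ v.ord (a + b) = 0 := by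
  rcases ha with rfl | ha
  · simpa using ⟨hb, hb0⟩
  · have ha0 : a ≠ 0 := by
      rintro rfl
      simp at ha
    have := ord_add_eq_of_lt v hb ha0 (by rw [hb0]; exact ha)
    rw [add_comm] at this
    exact ⟨this.1, this.2.trans hb0⟩

theorem ord_pow (f : F) (n : ℕ) : v.ord (f ^ n) = n * v.ord f := by
  have := v.ord_zpow f n
  rwa [zpow_natCast] at this

end Fermat.Agent.S24_helper38
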