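import Fermat.Agent.S24_helper38.Kaehler
import Fermat.Agent.S24_helper38.OrdBasic
import Fermat.Prelude.Def_AlgebraicCurve_CanonicalDivisor

set_option autoImplicit false

/-!
# Orders of differentials at a place (helper38, T24 / M4e)

`K` algebraically closed of characteristic zero, `F / K` of transcendence degree `≤ 1`,
`v : Place K F`.  We define the derivation `dd v : f ↦ df / dt_v` (with `t_v` the Prelude's local
coordinate), show that it preserves the valuation ring (under a finiteness hypothesis), and compute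
`ord_v (df)`.
-/

open KaehlerDifferential AlgebraicCurve

namespace Fermat.Agent.S24_helper38

variable {K F : Type*} [Field K] [Field F] [Algebra K F] [IsAlgClosed K] [CharZero K]

section DD

variable (htr : Algebra.trdeg K F ≤ 1) (v : Place K F)

/-- `v.differentialCoeff` as a linear map. -/
noncomputable def coeffLin : Ω[F⁄K] →ₗ[F] F where
  toFun := v.differentialCoeff
  map_add' ω₁ ω₂ := by
    obtain ⟨t, ht1, -⟩ := exists_dCoord_eq v
    have := dCoordGenerates htr v
    have := nontrivial_kaehler htr
      (notMem_range_of_ord_ne_zero v (t := t) (by rw [ht1]; exact one_ne_zero))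
    apply v.differentialCoeff_unique
    rw [add_smul, v.differentialCoeff_smul_dCoord, v.differentialCoeff_smul_dCoord]
  map_smul' c ω := by
    obtain ⟨t, ht1, -⟩ := exists_dCoord_eq v
    have := dCoordGenerates htr v
    have := nontrivial_kaehler htr
      (notMem_range_of_ord_ne_zero v (t := t) (by rw [ht1]; exact one_ne_zero))
    simpa using v.differentialCoeff_smul c ω

/-- The derivation `f ↦ df / dt_v`. -/
noncomputable def dd : Derivation K F F := (coeffLin htr v).compDer (D K F)

theorem dd_apply (f : F) : dd htr v f = v.differentialCoeff (D K F f) := rfl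

theorem ordDifferential_D (f : F) : v.ordDifferential (D K F f) = v.ord (dd htr v f) := rfl

theorem dd_smul_dCoord (f : F) : dd htr v f • v.dCoord = D K F f := by
  have := dCoordGenerates htr v
  exact v.differentialCoeff_smul_dCoord _

theorem dd_eq_one {t : F} (hdt : v.dCoord = D K F t) (ht1 : v.ord t = 1) : dd htr v t = 1 := by
  have := dCoordGenerates htr v
  have := nontrivial_kaehler htr
    (notMem_range_of_ord_ne_zero v (t := t) (by rw [ht1]; exact one_ne_zero))
  rw [dd_apply, ← hdt]
  exact v.differentialCoeff_dCoord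

end DD

section Bounded

variable (htr : Algebra.trdeg K F ≤ 1) (v : Place K F)

/-- The map `Ω[O_v⁄K] → F`, `D a ↦ da / dt_v`. -/
noncomputable def ddLin : Ω[v.toValuationSubring⁄K] →ₗ[v.toValuationSubring] F :=
  ((coeffLin htr v).restrictScalars v.toValuationSubring) ∘ₗ
    (KaehlerDifferential.map K K v.toValuationSubring F)

theorem ddLin_D (a : v.toValuationSubring) :
    ddLin htr v (D K v.toValuationSubring a) = dd htr v (a : F) := by
  simp only [ddLin, LinearMap.coe_comp, Function.comp_apply, KaehlerDifferential.map_D]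
  rfl

omit [IsAlgClosed K] [CharZero K] in
/-- Multiplying by a high power of a uniformizer brings a finitely generated `O_v`-submodule of `F`
into `O_v`. -/
theorem exists_pow_mul_mem_of_fg {t : F} (ht : v.ord t = 1)
    (N : Submodule v.toValuationSubring F) (hN : N.FG) :
    ∃ m : ℕ, ∀ g ∈ N, t ^ m * g ∈ v.toValuationSubring := by
  classical
  obtain ⟨S, rfl⟩ := hN
  have ht0 : t ≠ 0 := by
    rintro rfl
    simp at ht
  refine ⟨S.sup fun s => (-(v.ord s)).toNat, fun g hg => ?_⟩
  induction hg using Submodule.span_induction with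
  | mem s hs =>
    rcases eq_or_ne s 0 with rfl | hs0
    · simp [zero_mem]
    rw [mem_iff_ord_nonneg, v.ord_mul (pow_ne_zero _ ht0) hs0, ord_pow, ht, mul_one]
    have : (-(v.ord s)).toNat ≤ S.sup fun s => (-(v.ord s)).toNat :=
      Finset.le_sup (f := fun s => (-(v.ord s)).toNat) hs
    omega
  | zero => simp [zero_mem]
  | add a b _ _ iha ihb => rw [mul_add]; exact add_mem iha ihb
  | smul r g _ ih =>
    have : t ^ (S.sup fun s => (-(v.ord s)).toNat) * (r • g)
        = (r : F) * (t ^ (S.sup fun s => (-(v.ord s)).toNat) * g) := by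
      rw [show r • g = (r : F) * g from rfl]; ring
    rw [this]
    exact mul_mem r.2 ih

theorem exists_pow_mul_dd_mem [Algebra.EssFiniteType K v.toValuationSubring] {t : F}
    (ht : v.ord t = 1) :
    ∃ m : ℕ, ∀ f ∈ v.toValuationSubring, t ^ m * dd htr v f ∈ v.toValuationSubring := by
  have hfg : (LinearMap.range (ddLin htr v)).FG := by
    rw [← Submodule.map_top]
    exact (Module.Finite.fg_top).map _
  obtain ⟨m, hm⟩ := exists_pow_mul_mem_of_fg v ht _ hfg
  exact ⟨m, fun f hf => hm _ ⟨D K v.toValuationSubring ⟨f, hf⟩, ddLin_D htr v ⟨f, hf⟩⟩⟩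

end Bounded

section Main

variable (htr : Algebra.trdeg K F ≤ 1) (v : Place K F)

/-- The residue field of `v` is `K` (phrased with `ord`). -/
def ResidueTrivial : Prop :=
  ∀ f : F, f ∈ v.toValuationSubring →
    ∃ c : K, f = algebraMap K F c ∨ 0 < v.ord (f - algebraMap K F c)

variable {v}

/-- `d/dt_v` preserves the valuation ring. -/
theorem dd_mem (hres : ResidueTrivial v) [Algebra.EssFiniteType K v.toValuationSubring]
    {f : F} (hf : f ∈ v.toValuationSubring) : dd htr v f ∈ v.toValuationSubring := by
  obtain ⟨t, ht1, hdt⟩ := exists_dCoord_eq v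
  have hdd1 := dd_eq_one htr v hdt ht1
  have ht0 : t ≠ 0 := by
    rintro rfl
    simp at ht1
  have htmem : t ∈ v.toValuationSubring := mem_of_ord_nonneg v (by rw [ht1]; exact zero_le_one)
  obtain ⟨m, hm⟩ := exists_pow_mul_dd_mem htr v ht1
  suffices h : ∀ m : ℕ, (∀ f ∈ v.toValuationSubring, t ^ m * dd htr v f ∈ v.toValuationSubring) →
      ∀ f ∈ v.toValuationSubring, dd htr v f ∈ v.toValuationSubring from h m hm f hf
  intro m
  induction m with
  | zero => intro h f hf; simpa using h f hf
  | succ m ih =>
    intro h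
    apply ih
    intro f hf
    obtain ⟨c, hc | hc⟩ := hres f hf
    · rw [hc, Derivation.map_algebraMap, mul_zero]; exact zero_mem _
    · -- `f = c + t * f₁`
      have hfc0 : f - algebraMap K F c ≠ 0 := by
        intro h0; rw [h0] at hc; simp at hc
      set f₁ : F := (f - algebraMap K F c) / t with hf₁
      have hf₁mem : f₁ ∈ v.toValuationSubring := by
        rw [mem_iff_ord_nonneg, hf₁, div_eq_mul_inv, v.ord_mul hfc0 (inv_ne_zero ht0), v.ord_inv, ht1]
        omega
      have hfeq : f = algebraMap K F c + t * f₁ := by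
        rw [hf₁]; field_simp; ring
      have hddf : dd htr v f = t * dd htr v f₁ + f₁ := by
        conv_lhs => rw [hfeq]
        rw [map_add, Derivation.map_algebraMap, zero_add, Derivation.leibniz, hdd1]
        simp only [smul_eq_mul, mul_one]
      rw [hddf, mul_add, ← mul_assoc, ← pow_succ]
      exact add_mem (h f₁ hf₁mem) (mul_mem (pow_mem htmem m) hf₁mem)

/-- If `ord_v g ≠ 0` then `ord_v (dg / dt_v) = ord_v g - 1`. -/
theorem ord_dd_of_ord_ne_zero (hres : ResidueTrivial v)
    [Algebra.EssFiniteType K v.toValuationSubring] {g : F} (hg : v.ord g ≠ 0) :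
    dd htr v g ≠ 0 ∧ v.ord (dd htr v g) = v.ord g - 1 := by
  obtain ⟨t, ht1, hdt⟩ := exists_dCoord_eq v
  have hdd1 := dd_eq_one htr v hdt ht1
  have ht0 : t ≠ 0 := by
    rintro rfl
    simp at ht1
  have hg0 : g ≠ 0 := by
    rintro rfl
    simp at hg
  set n : ℤ := v.ord g with hn
  set u : F := g * t ^ (-n) with hu
  have hu0 : u ≠ 0 := mul_ne_zero hg0 (zpow_ne_zero _ ht0)
  have hordu : v.ord u = 0 := by
    rw [hu, v.ord_mul hg0 (zpow_ne_zero _ ht0), v.ord_zpow, ht1]; ring
  have humem : u ∈ v.toValuationSubring := mem_of_ord_nonneg v hordu.ge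
  have hgeq : g = u * t ^ n := by
    rw [hu, mul_assoc, ← zpow_add₀ ht0]; simp
  have hddu := dd_mem htr hres humem
  -- `dd g = t^(n-1) * (t * dd u + n * u)`
  have hddg : dd htr v g = t ^ (n - 1) * (t * dd htr v u + (n : F) * u) := by
    conv_lhs => rw [hgeq]
    rw [Derivation.leibniz, Derivation.leibniz_zpow, hdd1]
    simp only [smul_eq_mul, mul_one, zsmul_eq_mul]
    have : t ^ n = t ^ (n - 1) * t := by
      rw [← zpow_add_one₀ ht0]; simp
    rw [this]; ring
  have hnF : (n : F) = algebraMap K F (n : K) := by simp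
  have hn0 : (n : F) ≠ 0 := by
    rw [hnF]
    exact (map_ne_zero (algebraMap K F)).mpr (by exact_mod_cast hg)
  have hordn : v.ord ((n : F) * u) = 0 := by
    rw [v.ord_mul hn0 hu0, hordu, hnF, ord_algebraMap]; rfl
  have ha : t * dd htr v u = 0 ∨ 0 < v.ord (t * dd htr v u) := by
    rcases eq_or_ne (dd htr v u) 0 with h0 | h0
    · left; rw [h0, mul_zero]
    · right
      rw [v.ord_mul ht0 h0, ht1]
      have := ord_nonneg_of_mem v hddu
      omega
  obtain ⟨hne, hord⟩ := ord_add_eq_zero v ha (mul_ne_zero hn0 hu0) hordn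
  refine ⟨by rw [hddg]; exact mul_ne_zero (zpow_ne_zero _ ht0) hne, ?_⟩
  rw [hddg, v.ord_mul (zpow_ne_zero _ ht0) hne, hord, v.ord_zpow, ht1]
  ring

include htr

/-- `df / dt_v ≠ 0` for non-constant `f`. -/
theorem dd_ne_zero {f : F} (hf : f ∉ Set.range (algebraMap K F)) : dd htr v f ≠ 0 := by
  intro h0
  have := dd_smul_dCoord htr v f
  rw [h0, zero_smul] at this
  exact D_ne_zero htr hf this.symm

/-- Order of `df` at a place where `f` is regular with value `c`: `ord_v (f - c) - 1`. -/
theorem ordDifferential_D_of_pos (hres : ResidueTrivial v)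
    [Algebra.EssFiniteType K v.toValuationSubring] {f : F} {c : K}
    (hc : 0 < v.ord (f - algebraMap K F c)) :
    v.ordDifferential (D K F f) = v.ord (f - algebraMap K F c) - 1 := by
  have h1 : D K F f = D K F (f - algebraMap K F c) := by
    rw [map_sub, Derivation.map_algebraMap, sub_zero]
  rw [h1, ordDifferential_D htr]
  exact (ord_dd_of_ord_ne_zero htr hres hc.ne').2

/-- Order of `df` at a pole of `f`: `ord_v f - 1`. -/
theorem ordDifferential_D_of_neg (hres : ResidueTrivial v)
    [Algebra.EssFiniteType K v.toValuationSubring] {f : F} (hf : v.ord f < 0) :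
    v.ordDifferential (D K F f) = v.ord f - 1 := by
  rw [ordDifferential_D htr]
  exact (ord_dd_of_ord_ne_zero htr hres hf.ne).2

/-- `ord_v (g • df) = ord_v g + ord_v (df)`. -/
theorem ordDifferential_smul_D {g f : F} (hg : g ≠ 0) (hf : f ∉ Set.range (algebraMap K F)) :
    v.ordDifferential (g • D K F f) = v.ord g + v.ordDifferential (D K F f) := by
  have := dCoordGenerates htr v
  have := nontrivial_kaehler htr hf
  exact v.ordDifferential_smul hg (dd_ne_zero htr hf)

/-- Every differential is a multiple of `df` for non-constant `f`. -/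
theorem exists_eq_smul_D {f : F} (hf : f ∉ Set.range (algebraMap K F)) (ω : Ω[F⁄K]) :
    ∃ g : F, ω = g • D K F f := by
  have hω : ω ∈ (⊤ : Submodule F Ω[F⁄K]) := Submodule.mem_top
  rw [← span_D_eq_top htr hf, Submodule.mem_span_singleton] at hω
  exact hω.imp fun _ h => h.symm

end Main

section Genus

variable (htr : Algebra.trdeg K F ≤ 1)

include htr

/-- Endgame helper: if every canonical divisor has degree `2 g - 2`, the Prelude genus is `g`. -/
theorem genus_eq_of_degree [AlgebraicCurve.HasCanonicalDivisor (K := K) (F := F)]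
    {t : F} (ht : t ∉ Set.range (algebraMap K F)) (g : ℕ)
    (h : ∀ ω : Ω[F⁄K], ω ≠ 0 → ∀ D : Divisor K F, (∀ v : Place K F, D v = v.ordDifferential ω) →
      Divisor.degree D = 2 * (g : ℤ) - 2) :
    AlgebraicCurve.genus K F = g := by
  have hex : ∃ ω : Ω[F⁄K], ω ≠ 0 := ⟨D K F t, D_ne_zero htr ht⟩
  unfold AlgebraicCurve.genus
  rw [dif_pos hex]
  have := h _ hex.choose_spec (canonicalDivisorOf hex.choose_spec)
    (fun v => canonicalDivisorOf_apply hex.choose_spec v)
  rw [this]
  have : (2 * (g : ℤ) - 2 + 2).toNat = 2 * g := by omega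
  rw [this]
  omega

end Genus

end Fermat.Agent.S24_helper38
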