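import Fermat.Agent.S24_helper38.EssFinite
import Fermat.Agent.S24.DegOne

set_option autoImplicit false
set_option linter.style.haveILetI false
set_option linter.unusedSectionVars false

/-!
# The two local hypotheses of `DiffOrd` for every place of a function field with a generator
(helper38, T24)

For `F / K` with a generator `x` (`[IsGen K x]`), `K` algebraically closed of characteristic zero:

* `trdeg_le_one_of_isGen : Algebra.trdeg K F ≤ 1`;
* `essFiniteType_place : Algebra.EssFiniteType K v.toValuationSubring` for every place `v`;
* `residueTrivial_of_isGen : ResidueTrivial v` for every place `v`;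
* hypothesis-free local formulas `ordDifferential_D_of_pos'`, `ordDifferential_D_of_neg'`.
-/

open AlgebraicCurve IntermediateField Polynomial IsDedekindDomain KaehlerDifferential

namespace Fermat.Agent.S24_helper38

open Fermat.Agent.S24 Fermat.Agent.S24_helper6

variable {K F : Type*} [Field K] [Field F] [Algebra K F]

open scoped IntermediateField.algebraAdjoinAdjoin in
/-- A function field with a generator has transcendence degree at most one. -/
theorem trdeg_le_one_of_isGen (x : F) [hx : IsGen K x] : Algebra.trdeg K F ≤ 1 := by
  have h1 : Algebra.IsAlgebraic K⟮x⟯ F := Algebra.IsAlgebraic.of_finite _ _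
  have h2 : Algebra.IsAlgebraic (Algebra.adjoin K {x}) F :=
    (IsFractionRing.comap_isAlgebraic_iff (A := Algebra.adjoin K {x}) (K := K⟮x⟯) (C := F)).mpr h1
  have := Algebra.IsAlgebraic.trdeg_le_cardinalMk K ({x} : Set F)
  simpa using this

/-- Integral elements over `K[x]` lie in `O_v` as soon as `x` does. -/
theorem mem_of_isIntegral_aeval (v : Place K F) {x : F} (hxv : x ∈ v.toValuationSubring)
    {b : F} (hb : letI : Algebra K[X] F := (aeval x : K[X] →ₐ[K] F).toRingHom.toAlgebra
      IsIntegral K[X] b) : b ∈ v.toValuationSubring := by
  letI algPF : Algebra K[X] F := (aeval x : K[X] →ₐ[K] F).toRingHom.toAlgebra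
  let ι : K[X] →+* v.toValuationSubring :=
    (aeval (⟨x, hxv⟩ : v.toValuationSubring) : K[X] →ₐ[K] v.toValuationSubring).toRingHom
  have hcomp : (algebraMap v.toValuationSubring F).comp ι =
      (RingHom.id F).comp (algebraMap K[X] F) := by
    ext p
    · simp [ι, RingHom.algebraMap_toAlgebra]
    · simp [ι, RingHom.algebraMap_toAlgebra]
  have hint : IsIntegral v.toValuationSubring b :=
    IsIntegral.map_of_comp_eq ι (RingHom.id F) hcomp hb
  obtain ⟨y, hy⟩ :=
    (IsIntegrallyClosed.isIntegral_iff (R := v.toValuationSubring) (K := F)).mp hint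
  rw [← hy]
  exact y.2

/-- `O_v` is essentially of finite type over `K` when the generator `x` is regular at `v`. -/
theorem essFiniteType_of_mem [CharZero K] (x : F) [hx : IsGen K x] (v : Place K F)
    (hxv : x ∈ v.toValuationSubring) : Algebra.EssFiniteType K v.toValuationSubring := by
  classical
  -- K[X] → F
  letI algPF : Algebra K[X] F := (aeval x : K[X] →ₐ[K] F).toRingHom.toAlgebra
  haveI : IsScalarTower K K[X] F := IsScalarTower.of_algebraMap_eq fun a => by
    rw [RingHom.algebraMap_toAlgebra]
    simp
  -- RatFunc K → F
  let e : RatFunc K ≃ₐ[K] K⟮x⟯ := RatFunc.algEquivOfTranscendental x hx.transcendental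
  let φ : RatFunc K →ₐ[K] F := (IntermediateField.val K⟮x⟯).comp e.toAlgHom
  letI algRF : Algebra (RatFunc K) F := φ.toRingHom.toAlgebra
  haveI : IsScalarTower K (RatFunc K) F := IsScalarTower.of_algebraMap_eq fun a => by
    rw [RingHom.algebraMap_toAlgebra]
    exact (φ.commutes a).symm
  haveI : IsScalarTower K[X] (RatFunc K) F := IsScalarTower.of_algebraMap_eq fun p => by
    rw [RingHom.algebraMap_toAlgebra, RingHom.algebraMap_toAlgebra]
    show aeval x p = φ (algebraMap K[X] (RatFunc K) p)
    simp [φ, e]
  haveI : FiniteDimensional (RatFunc K) F := by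
    refine Module.Finite.of_equiv_equiv (A₁ := K⟮x⟯) (B₁ := F) e.symm.toRingEquiv
      (RingEquiv.refl F) ?_
    ext a
    simp only [RingHom.algebraMap_toAlgebra, RingHom.coe_comp, Function.comp_apply]
    show φ (e.symm a) = a
    simp [φ]
  haveI : Algebra.IsSeparable (RatFunc K) F := inferInstance
  let B := integralClosure K[X] F
  haveI : IsDedekindDomain B := integralClosure.isDedekindDomain K[X] (RatFunc K) F
  haveI : IsFractionRing B F := integralClosure.isFractionRing_of_finite_extension (RatFunc K) F
  haveI : Module.Finite K[X] B := IsIntegralClosure.finite K[X] (RatFunc K) F B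
  haveI : IsScalarTower K B F := inferInstance
  haveI : IsScalarTower K K[X] B := inferInstance
  haveI : Algebra.FiniteType K[X] B := inferInstance
  haveI : Algebra.FiniteType K B :=
    Algebra.FiniteType.trans (inferInstance : Algebra.FiniteType K K[X])
      (inferInstance : Algebra.FiniteType K[X] B)
  have hB : ContainsB B v := fun b => mem_of_isIntegral_aeval v hxv b.2
  exact essFiniteType_of_containsB v hB

/-- The inverse of a generator is a generator. -/
theorem isGen_inv (x : F) [hx : IsGen K x] : IsGen K x⁻¹ :=
  IsGen.of_transcendental x fun h => hx.transcendental (by simpa using h.inv)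

/-- `O_v` is essentially of finite type over `K`, for every place of a function field in one
variable (characteristic zero). -/
theorem essFiniteType_place [CharZero K] (x : F) [hx : IsGen K x] (v : Place K F) :
    Algebra.EssFiniteType K v.toValuationSubring := by
  rcases v.toValuationSubring.mem_or_inv_mem x with h | h
  · exact essFiniteType_of_mem x v h
  · haveI := isGen_inv (K := K) x
    exact essFiniteType_of_mem x⁻¹ v h

/-- The residue field of every place is `K` (for `K` algebraically closed). -/
theorem residueTrivial_of_isGen [IsAlgClosed K] (x : F) [hx : IsGen K x] (v : Place K F) :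
    ResidueTrivial v := by
  intro f hf
  have hint : Algebra.IsIntegral K v.ResidueField := ⟨fun b => by
    obtain ⟨a, rfl⟩ := IsLocalRing.residue_surjective b
    exact (PlaceB.residue_isAlgebraic v x a).isIntegral⟩
  have hbij : Function.Bijective (algebraMap K v.ResidueField) :=
    IsAlgClosed.algebraMap_bijective_of_isIntegral
  obtain ⟨c, hc⟩ := hbij.2 (IsLocalRing.residue v.toValuationSubring ⟨f, hf⟩)
  refine ⟨c, ?_⟩
  by_cases hfc : f = algebraMap K F c
  · exact Or.inl hfc
  · right
    have hne : (⟨f, hf⟩ - algebraMap K v.toValuationSubring c : v.toValuationSubring) ≠ 0 := by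
      intro h
      have h' : f - algebraMap K F c = 0 := congrArg Subtype.val h
      exact hfc (sub_eq_zero.mp h')
    have hmem : (⟨f, hf⟩ - algebraMap K v.toValuationSubring c : v.toValuationSubring) ∈
        IsLocalRing.maximalIdeal v.toValuationSubring := by
      rw [← IsLocalRing.residue_eq_zero_iff, map_sub, sub_eq_zero, ← hc]
      rfl
    exact (PlaceB.ord_pos_iff_mem_maximalIdeal v hne).mpr hmem

section Final

variable [IsAlgClosed K] [CharZero K]

/-- Order of `df` at a place where `f` is regular with value `c`: `ord_v (f - c) - 1`
(all hypotheses discharged from `[IsGen K x]`). -/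
theorem ordDifferential_D_of_pos' (x : F) [hx : IsGen K x] {v : Place K F} {f : F} {c : K}
    (hc : 0 < v.ord (f - algebraMap K F c)) :
    v.ordDifferential (D K F f) = v.ord (f - algebraMap K F c) - 1 :=
  haveI := essFiniteType_place x v
  ordDifferential_D_of_pos (trdeg_le_one_of_isGen x) (residueTrivial_of_isGen x v) hc

/-- Order of `df` at a pole of `f`: `ord_v f - 1` (all hypotheses discharged from
`[IsGen K x]`). -/
theorem ordDifferential_D_of_neg' (x : F) [hx : IsGen K x] {v : Place K F} {f : F} (hf : v.ord f < 0) :
    v.ordDifferential (D K F f) = v.ord f - 1 :=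
  haveI := essFiniteType_place x v
  ordDifferential_D_of_neg (trdeg_le_one_of_isGen x) (residueTrivial_of_isGen x v) hf

/-- `d/dt_v` preserves `O_v` (all hypotheses discharged from `[IsGen K x]`). -/
theorem dd_mem' (x : F) [hx : IsGen K x] {v : Place K F} {f : F} (hf : f ∈ v.toValuationSubring) :
    dd (trdeg_le_one_of_isGen x) v f ∈ v.toValuationSubring :=
  haveI := essFiniteType_place x v
  dd_mem (trdeg_le_one_of_isGen x) (residueTrivial_of_isGen x v) hf

end Final

end Fermat.Agent.S24_helper38
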