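import Fermat.Agent.S24_helper38.DiffOrd
import Fermat.Agent.S24_helper6.PlaceDict

set_option autoImplicit false
set_option linter.style.haveILetI false
set_option linter.unusedSectionVars false

/-!
# The valuation ring of a place is essentially of finite type (helper38, T24)

`O_v` is the localization of a Dedekind domain `B ⊆ O_v` (with fraction field `F`) at the centre
of `v`; if `B` is of finite type over `K`, then `O_v` is essentially of finite type over `K`.
-/

open AlgebraicCurve IsDedekindDomain IsDedekindDomain.HeightOneSpectrum

namespace Fermat.Agent.S24_helper38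

open Fermat.Agent.S24_helper6

section Generic

variable {K F : Type*} [Field K] [Field F] [Algebra K F]
  {B : Type*} [CommRing B] [IsDedekindDomain B] [Algebra K B] [Algebra B F]
  [IsScalarTower K B F] [IsFractionRing B F]

/-- Every element of `O_v` is a fraction `a / s` with `a, s ∈ B`, `s` outside the centre. -/
theorem exists_eq_div_of_mem (v : Place K F) (hB : ContainsB B v) {z : F}
    (hz : z ∈ v.toValuationSubring) :
    ∃ a s : B, s ∉ centre v hB ∧ z * algebraMap B F s = algebraMap B F a := by
  have h1 : v.toValuationSubring = valuationSubringAtPrime F (primeOfPlace v hB) := by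
    conv_lhs => rw [← placeOfPrime_primeOfPlace v hB]
    rw [placeOfPrime_toValuationSubring, ← valuationSubringAtPrime_eq_valuationSubring]
  rw [h1] at hz
  obtain ⟨a, s, hs, rfl⟩ := hz
  refine ⟨a, s, hs, ?_⟩
  have hs0 : algebraMap B F s ≠ 0 := by
    intro h0
    apply hs
    have : s = 0 := (map_eq_zero_iff _ (IsFractionRing.injective B F)).mp h0
    rw [this]
    exact Ideal.zero_mem _
  rw [mul_assoc, inv_mul_cancel₀ hs0, mul_one]

/-- `O_v` is the localization of `B` at the centre of `v`. -/
theorem isLocalization_place (v : Place K F) (hB : ContainsB B v) :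
    letI : Algebra B v.toValuationSubring := (toPlaceRing v hB).toAlgebra
    IsLocalization (centre v hB).primeCompl v.toValuationSubring := by
  letI : Algebra B v.toValuationSubring := (toPlaceRing v hB).toAlgebra
  refine ⟨⟨?_, ?_, ?_⟩⟩
  · rintro ⟨s, hs⟩
    by_contra hnu
    exact hs ((mem_centre_iff v hB s).2 hnu)
  · intro z
    obtain ⟨a, s, hs, h⟩ := exists_eq_div_of_mem v hB z.2
    refine ⟨(a, ⟨s, hs⟩), ?_⟩
    apply Subtype.ext
    exact h
  · intro x y hxy
    refine ⟨1, ?_⟩
    have h : algebraMap B F x = algebraMap B F y := congrArg Subtype.val hxy
    have := IsFractionRing.injective B F h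
    simp [this]

/-- If `B` is a finite type `K`-algebra, then `O_v` is essentially of finite type over `K`. -/
theorem essFiniteType_of_containsB [Algebra.FiniteType K B] (v : Place K F)
    (hB : ContainsB B v) : Algebra.EssFiniteType K v.toValuationSubring := by
  letI : Algebra B v.toValuationSubring := (toPlaceRing v hB).toAlgebra
  haveI : IsScalarTower K B v.toValuationSubring := IsScalarTower.of_algebraMap_eq fun a => by
    apply Subtype.ext
    show algebraMap K F a = algebraMap B F (algebraMap K B a)
    exact IsScalarTower.algebraMap_apply K B F a
  haveI := isLocalization_place v hB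
  haveI : Algebra.EssFiniteType B v.toValuationSubring :=
    Algebra.EssFiniteType.of_isLocalization _ (centre v hB).primeCompl
  exact Algebra.EssFiniteType.comp K B _

end Generic

end Fermat.Agent.S24_helper38
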