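import Mathlib
import Fermat.Prelude.Def_ModularCurve_CanonicalDivisor

set_option autoImplicit false

/-!
# Differentials of a function field in one variable (helper38, T24 / M4e)

`K` a field of characteristic zero, `F / K` a field extension.  If `x : F` is transcendental over
`K` and `F` is algebraic over `K(x)`, then `Ω[F⁄K]` is one-dimensional over `F`, spanned by `D x`,
and `D x ≠ 0`.
-/

open KaehlerDifferential Polynomial

namespace Fermat.Agent.S24_helper38

variable {K F : Type*} [Field K] [Field F] [Algebra K F]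

section Adjoin

variable (x : F)

/-- `D a` lies in the span of `D x` for every `a ∈ K[x]`. -/
theorem D_adjoin_mem_span (a : Algebra.adjoin K {x}) :
    D K (Algebra.adjoin K {x}) a ∈
      Submodule.span (Algebra.adjoin K {x})
        {D K (Algebra.adjoin K {x}) ⟨x, Algebra.self_mem_adjoin_singleton K x⟩} := by
  obtain ⟨a, ha⟩ := a
  induction ha using Algebra.adjoin_induction with
  | mem y hy =>
    have : y = x := by simpa using hy
    subst this
    exact Submodule.subset_span rfl
  | algebraMap r =>
    have : (⟨algebraMap K F r, Subalgebra.algebraMap_mem _ r⟩ : Algebra.adjoin K {x})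
        = algebraMap K _ r := rfl
    rw [this, Derivation.map_algebraMap]
    exact Submodule.zero_mem _
  | add a b ha hb iha ihb =>
    have : (⟨a + b, Subalgebra.add_mem _ ha hb⟩ : Algebra.adjoin K {x}) = ⟨a, ha⟩ + ⟨b, hb⟩ := rfl
    rw [this, map_add]
    exact Submodule.add_mem _ iha ihb
  | mul a b ha hb iha ihb =>
    have : (⟨a * b, Subalgebra.mul_mem _ ha hb⟩ : Algebra.adjoin K {x}) = ⟨a, ha⟩ * ⟨b, hb⟩ := rfl
    rw [this, Derivation.leibniz]
    exact Submodule.add_mem _ (Submodule.smul_mem _ _ ihb) (Submodule.smul_mem _ _ iha)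

theorem span_D_adjoin :
    Submodule.span (Algebra.adjoin K {x})
        {D K (Algebra.adjoin K {x}) ⟨x, Algebra.self_mem_adjoin_singleton K x⟩} = ⊤ := by
  rw [eq_top_iff, ← span_range_derivation, Submodule.span_le]
  rintro _ ⟨a, rfl⟩
  exact D_adjoin_mem_span x a

end Adjoin

section Deriv

variable {x : F} (hx : Transcendental K x)

/-- Evaluation at `x` of (the preimage under `K[X] ≃ K[x]` of) an element of `K[x]`. -/
theorem aeval_symm_algEquiv (a : Algebra.adjoin K {x}) :
    aeval x ((Polynomial.algEquivOfTranscendental K x hx).symm a) = (a : F) := by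
  obtain ⟨p, rfl⟩ := (Polynomial.algEquivOfTranscendental K x hx).surjective a
  rw [AlgEquiv.symm_apply_apply, Polynomial.algEquivOfTranscendental_apply]
  rw [← Subalgebra.coe_val, ← Polynomial.aeval_algHom_apply]
  rfl

/-- The derivation `d/dx : K[x] → F` for a transcendental `x`. -/
noncomputable def ddx : Derivation K (Algebra.adjoin K {x}) F :=
  Derivation.mk'
    ((aeval x).toLinearMap ∘ₗ (Polynomial.derivative (R := K)) ∘ₗ
      (Polynomial.algEquivOfTranscendental K x hx).symm.toLinearMap)
    (by
      intro a b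
      simp only [LinearMap.coe_comp, Function.comp_apply, AlgEquiv.toLinearMap_apply,
        AlgHom.toLinearMap_apply, map_mul, Polynomial.derivative_mul, map_add,
        aeval_symm_algEquiv, Subalgebra.smul_def, smul_eq_mul]
      ring)

theorem ddx_gen : ddx hx ⟨x, Algebra.self_mem_adjoin_singleton K x⟩ = 1 := by
  simp [ddx]

end Deriv

section Main

open scoped IntermediateField.algebraAdjoinAdjoin
open IntermediateField TensorProduct

variable [CharZero K] {x : F} (hx : Transcendental K x)

theorem formallyEtale_adjoin (halg : Algebra.IsAlgebraic K⟮x⟯ F) :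
    Algebra.FormallyEtale (Algebra.adjoin K {x}) F := by
  have : Algebra.FormallyEtale (Algebra.adjoin K {x}) K⟮x⟯ :=
    .of_isLocalization (nonZeroDivisors _)
  have : Algebra.IsSeparable K⟮x⟯ F := Algebra.IsAlgebraic.isSeparable_of_perfectField
  have : Algebra.FormallyEtale K⟮x⟯ F := .of_isSeparable _ _
  exact .comp _ K⟮x⟯ _

/-- `Ω[F⁄K]` is spanned by `D x`. -/
theorem span_D_eq_top_of_transcendental (halg : Algebra.IsAlgebraic K⟮x⟯ F) :
    Submodule.span F {D K F x} = ⊤ := by
  have := formallyEtale_adjoin (K := K) (x := x) halg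
  have hsurj : Function.Surjective (mapBaseChange K (Algebra.adjoin K {x}) F) := fun ω =>
    (exact_mapBaseChange_map K (Algebra.adjoin K {x}) F ω).mp (Subsingleton.elim _ _)
  rw [eq_top_iff]
  rintro ω -
  obtain ⟨t, rfl⟩ := hsurj ω
  induction t using TensorProduct.induction_on with
  | zero => simp
  | add a b ha hb => rw [map_add]; exact Submodule.add_mem _ ha hb
  | tmul f ω =>
    rw [mapBaseChange_tmul]
    refine Submodule.smul_mem _ _ ?_
    have hω : ω ∈ Submodule.span (Algebra.adjoin K {x})
        {D K (Algebra.adjoin K {x}) ⟨x, Algebra.self_mem_adjoin_singleton K x⟩} := by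
      rw [span_D_adjoin]; trivial
    obtain ⟨a, rfl⟩ := Submodule.mem_span_singleton.mp hω
    rw [map_smul, map_D]
    have : (algebraMap (Algebra.adjoin K {x}) F) ⟨x, Algebra.self_mem_adjoin_singleton K x⟩ = x :=
      rfl
    rw [this, Subalgebra.smul_def]
    exact Submodule.smul_mem _ _ (Submodule.subset_span rfl)

include hx in
/-- `D x ≠ 0` in `Ω[F⁄K]`. -/
theorem D_ne_zero_of_transcendental (halg : Algebra.IsAlgebraic K⟮x⟯ F) :
    D K F x ≠ 0 := by
  have := formallyEtale_adjoin (K := K) (x := x) halg
  intro h0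
  set e := tensorKaehlerEquivOfFormallyEtale K (Algebra.adjoin K {x}) F with he
  set g : Algebra.adjoin K {x} := ⟨x, Algebra.self_mem_adjoin_singleton K x⟩ with hg
  have h1 : e ((1 : F) ⊗ₜ[Algebra.adjoin K {x}] D K (Algebra.adjoin K {x}) g) = D K F x := by
    rw [he, tensorKaehlerEquivOfFormallyEtale_apply, mapBaseChange_tmul, one_smul, map_D]
    rfl
  have h2 : (1 : F) ⊗ₜ[Algebra.adjoin K {x}] D K (Algebra.adjoin K {x}) g = 0 := by
    apply e.injective
    rw [h1, h0, map_zero]
  let ψ : F ⊗[Algebra.adjoin K {x}] Ω[Algebra.adjoin K {x}⁄K] →ₗ[F] F :=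
    LinearMap.liftBaseChange F (ddx hx).liftKaehlerDifferential
  have h3 : ψ ((1 : F) ⊗ₜ[Algebra.adjoin K {x}] D K (Algebra.adjoin K {x}) g) = 1 := by
    simp only [ψ, LinearMap.liftBaseChange_tmul, Derivation.liftKaehlerDifferential_comp_D,
      one_smul]
    exact ddx_gen hx
  rw [h2, map_zero] at h3
  exact zero_ne_one h3

end Main

section PlaceBasics

open AlgebraicCurve

/-- The orders of constants vanish. -/
theorem ord_algebraMap (v : Place K F) (c : K) : v.ord (algebraMap K F c) = 0 := by
  rcases eq_or_ne c 0 with rfl | hc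
  · simp
  · have hu : IsUnit (algebraMap K v.toValuationSubring c) :=
      (IsUnit.mk0 c hc).map (algebraMap K v.toValuationSubring)
    have := v.ord_coe_unit hu.unit
    rwa [IsUnit.unit_spec, v.coe_algebraMap] at this

theorem notMem_range_of_ord_ne_zero (v : Place K F) {t : F} (ht : v.ord t ≠ 0) :
    t ∉ Set.range (algebraMap K F) := by
  rintro ⟨c, rfl⟩
  exact ht (ord_algebraMap v c)

/-- The Prelude's local coordinate differential is `D t` for some `t` of order one. -/
theorem exists_dCoord_eq (v : Place K F) : ∃ t : F, v.ord t = 1 ∧ v.dCoord = D K F t :=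
  ⟨((IsDiscreteValuationRing.exists_irreducible v.toValuationSubring).choose : F),
    v.ord_coe_irreducible (IsDiscreteValuationRing.exists_irreducible v.toValuationSubring).choose_spec,
    rfl⟩

end PlaceBasics

section AlgClosed

open IntermediateField AlgebraicCurve

variable [IsAlgClosed K]

theorem mem_range_of_isAlgebraic {t : F} (h : IsAlgebraic K t) :
    t ∈ Set.range (algebraMap K F) := by
  have hint : IsIntegral K t := h.isIntegral
  have hdeg := IsAlgClosed.degree_eq_one_of_irreducible K (minpoly.irreducible hint)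
  exact minpoly.mem_range_of_degree_eq_one K t hdeg

theorem transcendental_of_notMem_range {t : F} (ht : t ∉ Set.range (algebraMap K F)) :
    Transcendental K t := fun h => ht (mem_range_of_isAlgebraic h)

/-- If `F / K` has transcendence degree at most one and `K` is algebraically closed, then `F` is
algebraic over `K(t)` for every `t ∉ K`. -/
theorem isAlgebraic_adjoin_of_trdeg_le_one (htr : Algebra.trdeg K F ≤ 1) {t : F}
    (ht : t ∉ Set.range (algebraMap K F)) : Algebra.IsAlgebraic K⟮t⟯ F := by
  have htt := transcendental_of_notMem_range ht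
  have hai : AlgebraicIndependent K (fun _ : PUnit => t) :=
    algebraicIndependent_unique_type_iff.mpr htt
  have hb : IsTranscendenceBasis K (fun _ : PUnit => t) :=
    hai.isTranscendenceBasis_of_trdeg_le_of_finite (by simpa using htr)
  have := hb.isAlgebraic_field
  have hr : Set.range (fun _ : PUnit => t) = {t} := by
    ext y; simp [eq_comm]
  rwa [hr] at this

variable [CharZero K]

theorem span_D_eq_top (htr : Algebra.trdeg K F ≤ 1) {t : F}
    (ht : t ∉ Set.range (algebraMap K F)) : Submodule.span F {D K F t} = ⊤ :=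
  span_D_eq_top_of_transcendental (isAlgebraic_adjoin_of_trdeg_le_one htr ht)

theorem D_ne_zero (htr : Algebra.trdeg K F ≤ 1) {t : F}
    (ht : t ∉ Set.range (algebraMap K F)) : D K F t ≠ 0 :=
  D_ne_zero_of_transcendental (transcendental_of_notMem_range ht)
    (isAlgebraic_adjoin_of_trdeg_le_one htr ht)

theorem nontrivial_kaehler (htr : Algebra.trdeg K F ≤ 1) {t : F}
    (ht : t ∉ Set.range (algebraMap K F)) : Nontrivial Ω[F⁄K] :=
  ⟨⟨D K F t, 0, D_ne_zero htr ht⟩⟩

theorem dCoordGenerates (htr : Algebra.trdeg K F ≤ 1) (v : Place K F) : v.DCoordGenerates := by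
  obtain ⟨t, ht1, hdt⟩ := exists_dCoord_eq v
  refine ⟨?_⟩
  rw [hdt]
  exact span_D_eq_top htr (notMem_range_of_ord_ne_zero v (by rw [ht1]; exact one_ne_zero))

end AlgClosed

end Fermat.Agent.S24_helper38
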